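/-
Coordinate changes `(x, y) ↦ (x - r, y - s (x - r) - t)` on points.
-/
import Mathlib.AlgebraicGeometry.EllipticCurve.Affine.Point
import Mathlib.Tactic.LinearCombination

set_option autoImplicit false

open WeierstrassCurve WeierstrassCurve.Affine WeierstrassCurve.Affine.Point

namespace Fermat.Agent.Isogeny

variable {K : Type*} [Field K]

/-- `W₂` is obtained from `W₁` by the translation-shear `(r, s, t)`. -/
structure IsShear (W₁ W₂ : WeierstrassCurve.Affine K) (r s t : K) : Prop where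
  a₁ : W₂.a₁ = W₁.a₁ + 2 * s
  a₂ : W₂.a₂ = W₁.a₂ - s * W₁.a₁ + 3 * r - s ^ 2
  a₃ : W₂.a₃ = W₁.a₃ + r * W₁.a₁ + 2 * t
  a₄ : W₂.a₄ = W₁.a₄ - s * W₁.a₃ + 2 * r * W₁.a₂ - (t + r * s) * W₁.a₁ + 3 * r ^ 2 - 2 * s * t
  a₆ : W₂.a₆ = W₁.a₆ + r * W₁.a₄ + r ^ 2 * W₁.a₂ + r ^ 3 - t * W₁.a₃ - t ^ 2 - r * t * W₁.a₁
  Δ₁ : W₁.Δ ≠ 0
  Δ₂ : W₂.Δ ≠ 0

variable {W₁ W₂ : WeierstrassCurve.Affine K} {r s t : K}

theorem IsShear.negY (h : IsShear W₁ W₂ r s t) (x y : K) :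
    W₂.negY (x - r) (y - s * (x - r) - t) = W₁.negY x y - s * (x - r) - t := by
  simp only [Affine.negY, h.a₁, h.a₃]; ring

theorem IsShear.nonsingular_iff (h : IsShear W₁ W₂ r s t) (x y : K) :
    W₂.Nonsingular (x - r) (y - s * (x - r) - t) ↔ W₁.Nonsingular x y := by
  rw [← equation_iff_nonsingular_of_Δ_ne_zero h.Δ₁, ← equation_iff_nonsingular_of_Δ_ne_zero h.Δ₂,
    equation_iff, equation_iff, h.a₁, h.a₂, h.a₃, h.a₄, h.a₆]
  constructor <;> intro e <;> linear_combination e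

variable [DecidableEq K]

theorem IsShear.slope (h : IsShear W₁ W₂ r s t) {x₁ x₂ y₁ y₂ : K}
    (h₁ : W₁.Equation x₁ y₁) (h₂ : W₁.Equation x₂ y₂)
    (hxy : ¬(x₁ = x₂ ∧ y₁ = W₁.negY x₂ y₂)) :
    W₂.slope (x₁ - r) (x₂ - r) (y₁ - s * (x₁ - r) - t) (y₂ - s * (x₂ - r) - t)
      = W₁.slope x₁ x₂ y₁ y₂ - s := by
  by_cases hx : x₁ = x₂
  · subst hx
    have hy : y₁ ≠ W₁.negY x₁ y₂ := fun e => hxy ⟨rfl, e⟩
    have hy' : y₁ - s * (x₁ - r) - t ≠ W₂.negY (x₁ - r) (y₂ - s * (x₁ - r) - t) := by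
      rw [h.negY]; simpa using hy
    rw [slope_of_Y_ne rfl hy, slope_of_Y_ne rfl hy']
    have hy₁ : y₁ ≠ W₁.negY x₁ y₁ := fun e => hy (by rwa [← Y_eq_of_Y_ne h₁ h₂ rfl hy])
    have hd : y₁ - W₁.negY x₁ y₁ ≠ 0 := sub_ne_zero.mpr hy₁
    rw [h.negY, show y₁ - s * (x₁ - r) - t - (W₁.negY x₁ y₁ - s * (x₁ - r) - t)
        = y₁ - W₁.negY x₁ y₁ by ring, h.a₁, h.a₂, h.a₄]
    field_simp
    simp only [Affine.negY]
    ring
  · have hx' : x₁ - r ≠ x₂ - r := by simpa using hx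
    rw [slope_of_X_ne hx, slope_of_X_ne hx']
    have hd : x₁ - x₂ ≠ 0 := sub_ne_zero.mpr hx
    rw [show x₁ - r - (x₂ - r) = x₁ - x₂ by ring]
    field_simp
    ring

/-- The map on points attached to a shear. -/
def IsShear.pointMap (h : IsShear W₁ W₂ r s t) : W₁.Point → W₂.Point
  | 0 => 0
  | .some x y hxy => .some (x - r) (y - s * (x - r) - t) ((h.nonsingular_iff x y).mpr hxy)

theorem IsShear.pointMap_add (h : IsShear W₁ W₂ r s t) (P Q : W₁.Point) :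
    h.pointMap (P + Q) = h.pointMap P + h.pointMap Q := by
  rcases P with _ | ⟨x₁, y₁, h₁⟩
  · rfl
  rcases Q with _ | ⟨x₂, y₂, h₂⟩
  · rfl
  by_cases hxy : x₁ = x₂ ∧ y₁ = W₁.negY x₂ y₂
  · rw [add_of_Y_eq hxy.1 hxy.2]
    refine (add_of_Y_eq (by rw [hxy.1]) ?_).symm
    rw [h.negY, hxy.1, hxy.2]
  · have hxy' : ¬(x₁ - r = x₂ - r ∧
        y₁ - s * (x₁ - r) - t = W₂.negY (x₂ - r) (y₂ - s * (x₂ - r) - t)) := by
      rintro ⟨e₁, e₂⟩
      have e₁' : x₁ = x₂ := sub_left_inj.mp e₁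
      refine hxy ⟨e₁', ?_⟩
      rw [h.negY, e₁'] at e₂
      linear_combination e₂
    rw [add_some hxy]
    simp only [IsShear.pointMap]
    rw [add_some hxy']
    simp only [some.injEq, h.slope h₁.1 h₂.1 hxy, addX, Affine.addY, negAddY, Affine.negY, h.a₁, h.a₂, h.a₃]
    constructor <;> ring

/-- The isomorphism on points attached to a shear. -/
noncomputable def IsShear.pointEquiv (h : IsShear W₁ W₂ r s t) : W₁.Point ≃+ W₂.Point :=
  AddEquiv.ofBijective (AddMonoidHom.mk' h.pointMap h.pointMap_add) <| by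
    constructor
    · rintro (_ | ⟨x₁, y₁, h₁⟩) (_ | ⟨x₂, y₂, h₂⟩) e
      · rfl
      · exact (nomatch e)
      · exact (nomatch e)
      · obtain ⟨e₁, e₂⟩ := Point.some.inj e
        obtain rfl : x₁ = x₂ := sub_left_inj.mp e₁
        obtain rfl : y₁ = y₂ := by linear_combination e₂
        rfl
    · rintro (_ | ⟨x, y, hxy⟩)
      · exact ⟨0, rfl⟩
      · refine ⟨.some (x + r) (y + s * x + t) ((h.nonsingular_iff _ _).mp ?_), ?_⟩
        · rw [show x + r - r = x by ring, show y + s * x + t - s * x - t = y by ring]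
          exact hxy
        · show Point.some _ _ _ = _
          simp only [some.injEq]
          constructor <;> ring

theorem IsShear.pointEquiv_some (h : IsShear W₁ W₂ r s t) {x y : K} (hxy : W₁.Nonsingular x y) :
    h.pointEquiv (.some x y hxy) =
      .some (x - r) (y - s * (x - r) - t) ((h.nonsingular_iff x y).mpr hxy) :=
  rfl

end Fermat.Agent.Isogeny
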