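/-
Quotient of an elliptic curve by a finite Galois-stable subgroup of odd order (Velu).
-/
import Fermat.Prelude.Def_FLTPrelim_CofixedLine
import Mathlib.FieldTheory.Galois.Basic
import Mathlib.AlgebraicGeometry.EllipticCurve.VariableChange
import Mathlib.GroupTheory.OrderOfElement
import Mathlib.GroupTheory.Perm.Cycle.Type
import Mathlib.FieldTheory.Galois.Infinite
import Fermat.Agent.Isogeny.Transport
import Fermat.Agent.Isogeny.Velu.Hom
import Fermat.Agent.Isogeny.Velu.Galois
import Fermat.Agent.EC.TorsionCard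

set_option autoImplicit false

open WeierstrassCurve WeierstrassCurve.Affine WeierstrassCurve.Affine.Point

namespace Fermat.Agent.Isogeny

variable {F : Type*} [Field F] [CharZero F]
  {K : Type*} [Field K] [DecidableEq K] [IsAlgClosed K] [Algebra F K] [IsGalois F K]

open Velu

omit [CharZero F] [IsAlgClosed K] [IsGalois F K] in
theorem smul_some_eq (W : WeierstrassCurve F) (σ : K ≃ₐ[F] K) {x y : K}
    (h : (W.toAffine⁄K).Nonsingular x y) :
    σ • (Point.some x y h) = Point.some (σ x) (σ y)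
      ((W.toAffine.baseChange_nonsingular σ.toAlgHom.injective x y).mpr h) :=
  rfl

omit [DecidableEq K] [IsAlgClosed K] [IsGalois F K] in
/-- A short model. -/
theorem exists_shear_short (W : WeierstrassCurve F) (hΔ : W.Δ ≠ 0) :
    ∃ r s t A B : F, IsShear (W.toAffine⁄K) (shortW (algebraMap F K A) (algebraMap F K B)).toAffine
      (algebraMap F K r) (algebraMap F K s) (algebraMap F K t) := by
  have : CharZero K := charZero_of_injective_algebraMap (algebraMap F K).injective
  set r : F := -W.b₂ / 12 with hr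
  set s : F := -W.a₁ / 2 with hs
  set t : F := -(W.a₃ + r * W.a₁) / 2 with ht
  set W₂ : WeierstrassCurve F := (⟨1, r, s, t⟩ : VariableChange F) • W with hW₂
  have h₁ : W₂.a₁ = 0 := by
    rw [hW₂, variableChange_a₁, hs]; simp only [inv_one, Units.val_one]; ring
  have h₂ : W₂.a₂ = 0 := by
    rw [hW₂, variableChange_a₂, hs, hr, WeierstrassCurve.b₂]
    simp only [inv_one, Units.val_one]; ring
  have h₃ : W₂.a₃ = 0 := by
    rw [hW₂, variableChange_a₃, ht]; simp only [inv_one, Units.val_one]; ring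
  have hW : W₂ = shortW W₂.a₄ W₂.a₆ := WeierstrassCurve.ext h₁ h₂ h₃ rfl rfl
  have hmap : W₂.map (algebraMap F K) = shortW (algebraMap F K W₂.a₄) (algebraMap F K W₂.a₆) :=
    WeierstrassCurve.ext (by simp [h₁]) (by simp [h₂]) (by simp [h₃]) rfl rfl
  have e := hW₂
  simp only [variableChange_def, inv_one, Units.val_one, one_pow, one_mul] at e
  refine ⟨r, s, t, W₂.a₄, W₂.a₆, ?_⟩
  constructor
  · show (shortW (algebraMap F K W₂.a₄) (algebraMap F K W₂.a₆)).a₁ = _
    rw [← hmap, e]; simp [Affine.baseChange, WeierstrassCurve.baseChange, _root_.map_ofNat]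
  · show (shortW (algebraMap F K W₂.a₄) (algebraMap F K W₂.a₆)).a₂ = _
    rw [← hmap, e]; simp [Affine.baseChange, WeierstrassCurve.baseChange, _root_.map_ofNat]
  · show (shortW (algebraMap F K W₂.a₄) (algebraMap F K W₂.a₆)).a₃ = _
    rw [← hmap, e]; simp [Affine.baseChange, WeierstrassCurve.baseChange, _root_.map_ofNat]
  · show (shortW (algebraMap F K W₂.a₄) (algebraMap F K W₂.a₆)).a₄ = _
    rw [← hmap, e]; simp [Affine.baseChange, WeierstrassCurve.baseChange, _root_.map_ofNat]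
  · show (shortW (algebraMap F K W₂.a₄) (algebraMap F K W₂.a₆)).a₆ = _
    rw [← hmap, e]; simp [Affine.baseChange, WeierstrassCurve.baseChange, _root_.map_ofNat]
  · show (W.map (algebraMap F K)).Δ ≠ 0
    rw [map_Δ]; exact (map_ne_zero _).mpr hΔ
  · show (shortW (algebraMap F K W₂.a₄) (algebraMap F K W₂.a₆)).Δ ≠ 0
    rw [← hmap, map_Δ, hW₂, variableChange_Δ]
    simp [hΔ]

/-- A quotient of `W` by `C`: a curve `W'` over the base field `F` and a Galois-equivariant
surjective homomorphism on `K`-points with kernel `C`. -/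
structure QuotientCurve (W : WeierstrassCurve F) (C : AddSubgroup (W.toAffine⁄K).Point) where
  /-- the quotient curve -/
  curve : WeierstrassCurve F
  Δ_ne_zero : curve.Δ ≠ 0
  /-- the quotient map -/
  toHom : (W.toAffine⁄K).Point →+ (curve.toAffine⁄K).Point
  surjective : Function.Surjective toHom
  ker_eq : toHom.ker = C
  map_smul : ∀ (σ : K ≃ₐ[F] K) (P : (W.toAffine⁄K).Point), toHom (σ • P) = σ • toHom P

/-- Quotient of `W` by a finite Galois-stable subgroup of odd order. -/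
theorem nonempty_quotientCurve (W : WeierstrassCurve F) (hΔ : W.Δ ≠ 0)
    (C : AddSubgroup (W.toAffine⁄K).Point) [Finite C] (hodd : Odd (Nat.card C))
    (hC : ∀ σ : K ≃ₐ[F] K, ∀ P ∈ C, σ • P ∈ C) :
    Nonempty (QuotientCurve W C) := by
  classical
  have : CharZero K := charZero_of_injective_algebraMap (algebraMap F K).injective
  obtain ⟨r, s, t, A, B, h₁⟩ := exists_shear_short (K := K) W hΔ
  set e := h₁.pointEquiv with he
  set C' := C.map e.toAddMonoidHom with hC'
  letI : Fintype C := Fintype.ofFinite C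
  let ec : C ≃ C' := (C.equivMapOfInjective e.toAddMonoidHom e.injective).toEquiv
  letI : Fintype C' := Fintype.ofEquiv C ec
  have hodd' : Odd (Fintype.card C') := by
    rwa [← Fintype.card_congr ec, ← Nat.card_eq_fintype_card]
  -- the action transported to the short model
  let g : (K ≃ₐ[F] K) → (shortW (algebraMap F K A) (algebraMap F K B)).toAffine.Point →+
      (shortW (algebraMap F K A) (algebraMap F K B)).toAffine.Point := fun σ =>
    e.toAddMonoidHom.comp ((DistribSMul.toAddMonoidHom _ σ).comp e.symm.toAddMonoidHom)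
  have hge : ∀ (σ : K ≃ₐ[F] K) (P : (W.toAffine⁄K).Point), g σ (e P) = e (σ • P) := fun σ P => by
    simp [g]
  have hxy : ∀ (σ : K ≃ₐ[F] K) (P : (W.toAffine⁄K).Point),
      xc (e (σ • P)) = σ (xc (e P)) ∧ yc (e (σ • P)) = σ (yc (e P)) := by
    intro σ P
    rcases P with _ | ⟨x, y, h⟩
    · show xc (e (σ • 0)) = σ (xc (e 0)) ∧ yc (e (σ • 0)) = σ (yc (e 0))
      simp
    · rw [smul_some_eq, he, h₁.pointEquiv_some, h₁.pointEquiv_some]
      simp [xc, yc, map_sub, map_mul, AlgEquiv.commutes]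
  have hcompat : ∀ σ : K ≃ₐ[F] K, IsCompat C' (σ.toAlgHom.toRingHom) (g σ) := by
    intro σ
    refine ⟨σ.commutes A, σ.commutes B, ?_, fun P => ?_, fun P => ?_, ?_⟩
    · exact e.injective.comp ((MulAction.injective σ).comp e.symm.injective)
    · obtain ⟨P, rfl⟩ := e.surjective P
      rw [hge]; exact (hxy σ P).1
    · obtain ⟨P, rfl⟩ := e.surjective P
      rw [hge]; exact (hxy σ P).2
    · rintro _ ⟨Q, hQ, rfl⟩
      exact ⟨σ • Q, hC σ Q hQ, (hge σ Q).symm⟩
  obtain ⟨A', hA'⟩ := (InfiniteGalois.mem_range_algebraMap_iff_fixed (k := F) (Velu.Av C')).mpr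
    fun σ => (hcompat σ).Av
  obtain ⟨B', hB'⟩ := (InfiniteGalois.mem_range_algebraMap_iff_fixed (k := F) (Velu.Bv C')).mpr
    fun σ => (hcompat σ).Bv
  have hΔv := Velu.Δ_quotient_ne_zero C' h₁.Δ₂ hodd'
  have hmap : (shortW A' B').map (algebraMap F K) = shortW (Velu.Av C') (Velu.Bv C') :=
    WeierstrassCurve.ext (_root_.map_zero _) (_root_.map_zero _) (_root_.map_zero _) hA' hB'
  have hΔ' : (shortW A' B').Δ ≠ 0 := by
    intro h
    apply hΔv
    rw [← hmap, map_Δ, h, _root_.map_zero]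
  have h₂ : IsShear (shortW (Velu.Av C') (Velu.Bv C')).toAffine ((shortW A' B').toAffine⁄K)
      0 0 0 := by
    refine ⟨?_, ?_, ?_, ?_, ?_, hΔv, ?_⟩
    · show ((shortW A' B').map (algebraMap F K)).a₁ = _
      rw [hmap]; simp
    · show ((shortW A' B').map (algebraMap F K)).a₂ = _
      rw [hmap]; simp
    · show ((shortW A' B').map (algebraMap F K)).a₃ = _
      rw [hmap]; simp
    · show ((shortW A' B').map (algebraMap F K)).a₄ = _
      rw [hmap]; simp
    · show ((shortW A' B').map (algebraMap F K)).a₆ = _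
      rw [hmap]; simp
    show ((shortW A' B').map (algebraMap F K)).Δ ≠ 0
    rw [hmap]; exact hΔv
  set φ := Velu.vHom C' h₁.Δ₂ hodd' with hφ
  refine ⟨⟨shortW A' B', hΔ', h₂.pointEquiv.toAddMonoidHom.comp (φ.comp e.toAddMonoidHom),
    h₂.pointEquiv.surjective.comp ((Velu.vPoint_surjective C' h₁.Δ₂ hodd').comp e.surjective),
    ?_, ?_⟩⟩
  · ext P
    simp only [AddMonoidHom.mem_ker, AddMonoidHom.comp_apply, AddEquiv.coe_toAddMonoidHom,
      AddEquiv.map_eq_zero_iff]
    rw [← AddMonoidHom.mem_ker, hφ, Velu.vHom_ker]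
    exact AddSubgroup.mem_map_equiv.trans (by simp)
  · intro σ P
    simp only [AddMonoidHom.comp_apply, AddEquiv.coe_toAddMonoidHom]
    show h₂.pointEquiv (Velu.vPoint C' h₁.Δ₂ hodd' (e (σ • P))) =
      σ • h₂.pointEquiv (Velu.vPoint C' h₁.Δ₂ hodd' (e P))
    rw [← hge]
    by_cases hP : e P ∈ C'
    · rw [Velu.vPoint_of_mem _ _ _ hP, Velu.vPoint_of_mem _ _ _ ((hcompat σ).maps _ hP)]
      simp
    · have hgP : g σ (e P) ∉ C' := by
        rw [hge]
        intro h
        obtain ⟨Q, hQ, hQe⟩ := h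
        refine hP ⟨σ⁻¹ • Q, hC _ Q hQ, ?_⟩
        rw [e.injective hQe, inv_smul_smul]
        rfl
      simp only [Velu.vPoint, dif_neg hP, dif_neg hgP]
      rw [h₂.pointEquiv_some, h₂.pointEquiv_some, smul_some_eq]
      simp [← (hcompat σ).Xv, ← (hcompat σ).Yv]

omit [CharZero F] [IsAlgClosed K] in
/-- A point fixed by the Galois group comes from the base field. -/
theorem exists_baseChange_eq_of_fixed [DecidableEq F] (W : WeierstrassCurve F)
    (P : (W.toAffine⁄K).Point) (hP : ∀ σ : K ≃ₐ[F] K, σ • P = P) :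
    ∃ Q : (W.toAffine⁄F).Point, Point.map (Algebra.ofId F K) Q = P := by
  rcases P with _ | ⟨x, y, h⟩
  · exact ⟨0, rfl⟩
  · have hfix : ∀ σ : K ≃ₐ[F] K, σ x = x ∧ σ y = y := fun σ => by
      simpa [smul_some_eq] using hP σ
    obtain ⟨x₀, rfl⟩ :=
      (InfiniteGalois.mem_range_algebraMap_iff_fixed (k := F) x).mpr fun σ => (hfix σ).1
    obtain ⟨y₀, rfl⟩ :=
      (InfiniteGalois.mem_range_algebraMap_iff_fixed (k := F) y).mpr fun σ => (hfix σ).2
    exact ⟨.some x₀ y₀ ((W.toAffine.baseChange_nonsingular (Algebra.ofId F K).injective x₀ y₀).mp h),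
      rfl⟩

/-- Rational points, seen over the algebraic closure. -/
noncomputable def ratBaseChange (W : WeierstrassCurve ℚ) :
    W.toAffine.Point →+ (W.toAffine⁄(AlgebraicClosure ℚ)).Point :=
  Point.map (W' := W.toAffine) (Algebra.ofId ℚ (AlgebraicClosure ℚ))

theorem ratBaseChange_injective (W : WeierstrassCurve ℚ) :
    Function.Injective (ratBaseChange W) :=
  Point.map_injective (W' := W.toAffine) (Algebra.ofId ℚ (AlgebraicClosure ℚ))

theorem smul_ratBaseChange (W : WeierstrassCurve ℚ)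
    (σ : AlgebraicClosure ℚ ≃ₐ[ℚ] AlgebraicClosure ℚ) (P : W.toAffine.Point) :
    σ • ratBaseChange W P = ratBaseChange W P := by
  show Point.map σ.toAlgHom (Point.map (W' := W.toAffine)
    (Algebra.ofId ℚ (AlgebraicClosure ℚ)) P) = _
  rw [Point.map_map,
    Subsingleton.elim (σ.toAlgHom.comp (Algebra.ofId ℚ (AlgebraicClosure ℚ))) (Algebra.ofId ℚ _)]
  rfl

theorem exists_ratBaseChange_eq (W : WeierstrassCurve ℚ)
    (P : (W.toAffine⁄(AlgebraicClosure ℚ)).Point)
    (hP : ∀ σ : AlgebraicClosure ℚ ≃ₐ[ℚ] AlgebraicClosure ℚ, σ • P = P) :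
    ∃ Q : W.toAffine.Point, ratBaseChange W Q = P := by
  obtain ⟨Q, hQ⟩ := exists_baseChange_eq_of_fixed W P hP
  exact ⟨Q, hQ⟩

/-- A Galois-stable line with trivial quotient character gives, on the quotient curve, a rational
point of order `p`; rational points of order prime to `p` survive. -/
theorem exists_curve_of_cofixedLine (W : WeierstrassCurve ℚ) (hΔ : W.Δ ≠ 0) (p : ℕ)
    (hp : p.Prime) (hp2 : p ≠ 2)
    (h : HasGaloisStableCofixedLine (K := AlgebraicClosure ℚ) ℚ W.toAffine p) :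
    ∃ W' : WeierstrassCurve ℚ, W'.Δ ≠ 0 ∧
      (∃ P : W'.toAffine.Point, addOrderOf P = p) ∧
      ∃ ψ : W.toAffine.Point →+ W'.toAffine.Point, ∀ Q, ψ Q = 0 → p • Q = 0 := by
  classical
  haveI : (W.toAffine⁄(AlgebraicClosure ℚ)).IsElliptic := by
    refine ⟨?_⟩
    show IsUnit ((W.map (algebraMap ℚ (AlgebraicClosure ℚ))).Δ)
    rw [map_Δ]; exact ((map_ne_zero _).mpr hΔ).isUnit
  obtain ⟨N, hst, -, hNtop, hco⟩ := h
  set ι : ↥(Submodule.torsionBy ℤ (W.toAffine⁄(AlgebraicClosure ℚ)).Point p) →+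
      (W.toAffine⁄(AlgebraicClosure ℚ)).Point :=
    (Submodule.torsionBy ℤ (W.toAffine⁄(AlgebraicClosure ℚ)).Point p).subtype.toAddMonoidHom
  haveI : Finite (Submodule.torsionBy ℤ (W.toAffine⁄(AlgebraicClosure ℚ)).Point p) :=
    EC.finite_torsionBy (by exact_mod_cast hp.ne_zero)
  set C := N.toAddSubgroup.map ι with hCdef
  haveI : Finite C := Finite.of_surjective
    (fun x : N.toAddSubgroup => (⟨ι x, AddSubgroup.mem_map_of_mem ι x.2⟩ : C))
    fun ⟨_, x, hx, hxe⟩ => ⟨⟨x, hx⟩, Subtype.ext hxe⟩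
  have hpC : ∀ Q ∈ C, p • Q = 0 := by
    rintro _ ⟨x, -, rfl⟩
    rw [← natCast_zsmul]
    exact x.2
  have hodd : Odd (Nat.card C) := by
    by_contra hev
    haveI : Fact (Nat.Prime 2) := ⟨Nat.prime_two⟩
    obtain ⟨Q, hQ⟩ := exists_prime_addOrderOf_dvd_card' (G := C) 2
      (even_iff_two_dvd.mp (Nat.not_odd_iff_even.mp hev))
    have : addOrderOf Q ∣ p := addOrderOf_dvd_of_nsmul_eq_zero (Subtype.ext (hpC Q Q.2))
    rw [hQ] at this
    exact hp2 ((Nat.prime_dvd_prime_iff_eq Nat.prime_two hp).mp this).symm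
  obtain ⟨q⟩ := nonempty_quotientCurve W hΔ C hodd (by
    rintro σ _ ⟨x, hx, rfl⟩
    exact ⟨σ • x, hst σ x hx, rfl⟩)
  refine ⟨q.curve, q.Δ_ne_zero, ?_, ?_⟩
  · obtain ⟨x, -, hxN⟩ := SetLike.exists_of_lt (lt_top_iff_ne_top.mpr hNtop)
    have hfix : ∀ σ : AlgebraicClosure ℚ ≃ₐ[ℚ] AlgebraicClosure ℚ,
        σ • q.toHom (x : (W.toAffine⁄(AlgebraicClosure ℚ)).Point) = q.toHom x := by
      intro σ
      rw [← q.map_smul, ← sub_eq_zero, ← map_sub, ← AddMonoidHom.mem_ker, q.ker_eq]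
      exact ⟨σ • x - x, hco σ x, rfl⟩
    obtain ⟨Q, hQ⟩ := exists_ratBaseChange_eq q.curve _ hfix
    haveI : Fact p.Prime := ⟨hp⟩
    refine ⟨Q, addOrderOf_eq_prime (ratBaseChange_injective q.curve ?_) ?_⟩
    · rw [map_nsmul, hQ, ← map_nsmul, _root_.map_zero, ← natCast_zsmul, show ((p : ℕ) : ℤ) •
        (x : (W.toAffine⁄(AlgebraicClosure ℚ)).Point) = 0 from x.2, _root_.map_zero]
    · intro h0
      rw [h0, _root_.map_zero] at hQ
      have hmem : (x : (W.toAffine⁄(AlgebraicClosure ℚ)).Point) ∈ C :=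
        q.ker_eq ▸ AddMonoidHom.mem_ker.mpr hQ.symm
      obtain ⟨x', hx', hxe⟩ := hmem
      exact hxN (Subtype.ext hxe ▸ hx')
  · choose ψ hψ using fun Q : W.toAffine.Point =>
      exists_ratBaseChange_eq q.curve (q.toHom (ratBaseChange W Q))
        (fun σ => by rw [← q.map_smul, smul_ratBaseChange])
    refine ⟨AddMonoidHom.mk' ψ fun Q R => ratBaseChange_injective q.curve ?_, fun Q hQ => ?_⟩
    · rw [hψ, map_add, map_add, map_add, hψ, hψ]
    · have h0 := hψ Q
      rw [show ψ Q = 0 from hQ, _root_.map_zero] at h0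
      have hmem := hpC _ (q.ker_eq ▸ AddMonoidHom.mem_ker.mpr h0.symm)
      rw [← map_nsmul] at hmem
      exact (map_eq_zero_iff _ (ratBaseChange_injective W)).mp hmem

end Fermat.Agent.Isogeny
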